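import Fermat.Agent.SS.Formal.AL
import Fermat.Agent.S31.Cyclo

/-!
# SS/Formal/Core34 : `Crux2 ⟹ (σ' - 1)(σ - 1) = 0` on `Kum (M*q) m` for `σ σ'` in inertia at `q`
-/

set_option autoImplicit false

open AlgebraicCurve ModularCurve

namespace Fermat.Agent.SS

open Fermat.Agent.ES

noncomputable section

variable {M q m : ℕ} [NeZero M] [NeZero q]

/-- `σ f / f` is constant modulo the Gauss valuation, for `σ` in the inertia group. -/
theorem redConst_gal_div {N : ℕ} [NeZero N] (A : ValuationSubring Qb)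
    (g : A.decompositionSubgroup ℚ) (hg : (resA A).comp (galA g) = resA A)
    (f : FF N) (hf : f ≠ 0) : RedConst A (galF N (g : GQ) f * f⁻¹) := by
  obtain ⟨c, a, b, hc, ha, hb, ha0, hb0, hab⟩ := exists_integral_fraction N A f hf
  have hres : ∀ y : LaurentSeries A, coeffMap (resA A) (coeffMap (galA g) y)
      = coeffMap (resA A) y := fun y => by rw [coeffMap_coeffMap, hg]
  have hc' : (g : GQ) c ≠ 0 := by
    rw [Ne, map_eq_zero]; exact hc
  have hf0 : (f : LaurentSeries Qb) ≠ 0 := fun h => hf (Subtype.ext h)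
  have hcc : algebraMap Qb (LaurentSeries Qb) c ≠ 0 := by
    rw [Ne, map_eq_zero]; exact hc
  have hcc' : algebraMap Qb (LaurentSeries Qb) ((g : GQ) c) ≠ 0 := by
    rw [Ne, map_eq_zero]; exact hc'
  have hgal : coeffMap (((g : GQ) : Qb →+* Qb)) (algebraMap Qb (LaurentSeries Qb) c)
      = algebraMap Qb (LaurentSeries Qb) ((g : GQ) c) := by
    rw [algebraMap_laurentSeries_eq_single, algebraMap_laurentSeries_eq_single, coeffMap_single]
    rfl
  refine ⟨c * ((g : GQ) c)⁻¹, coeffMap (galA g) a * b, a * coeffMap (galA g) b,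
    mul_ne_zero hc (inv_ne_zero hc'), ?_, ?_, ?_, ?_, ?_⟩
  · rw [map_mul, coeffMap_subtype_galA]
    exact mul_mem (mem_FF_gal _ ha) hb
  · rw [map_mul, coeffMap_subtype_galA]
    exact mul_mem ha (mem_FF_gal _ hb)
  · rw [map_mul, map_mul, hres, hres]
  · rw [map_mul, hres]
    exact mul_ne_zero ha0 hb0
  · have hab' := congrArg (coeffMap (((g : GQ) : Qb →+* Qb))) hab
    rw [map_mul, map_mul, hgal] at hab'
    simp only [map_mul, coeffMap_subtype_galA, IntermediateField.coe_mul,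
      IntermediateField.coe_inv, coe_galF, map_inv₀]
    field_simp
    linear_combination (-(coeffMap (((g : GQ) : Qb →+* Qb)) (f : LaurentSeries Qb)
      * coeffMap (((g : GQ) : Qb →+* Qb)) (coeffMap A.subtype b))) * hab
      + ((f : LaurentSeries Qb) * coeffMap A.subtype b) * hab'

/-- **S34, finite level core.**  `Crux2` implies that `(σ' - 1)(σ - 1) = 0` on `Kum (M*q) m` for
`σ σ'` in the inertia group of `A ∣ q`. -/
theorem core34 (hq : q.Prime) (hqM : ¬ q ∣ M) (hqm : ¬ q ∣ m) (hc : Crux2 M q m)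
    (A : ValuationSubring Qb) (hA : A.LiesOverPrime q) (σ σ' : GQ)
    (hσ : σ ∈ A.inertiaSubgroupIn ℚ) (hσ' : σ' ∈ A.inertiaSubgroupIn ℚ) (x : Kum (M * q) m) :
    galKum (M * q) m σ' (galKum (M * q) m σ x - x) = galKum (M * q) m σ x - x := by
  have : NeZero (M * q) := ⟨Nat.mul_ne_zero (NeZero.ne M) (NeZero.ne q)⟩
  obtain ⟨w, hw⟩ := exists_isAL M q hq hqM
  obtain ⟨f, rfl⟩ := Kum.mk_surjective x
  obtain ⟨g, rfl, hg⟩ := res_galA_of_inertia hσ
  obtain ⟨τ, hτ, hτσ⟩ := Subgroup.mem_map.mp hσ'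
  have hτσ' : (τ : GQ) = σ' := hτσ
  have hτ1 : ∀ x : kA A, τ • x = x := by
    intro x
    have h1 : MulSemiringAction.toRingAut (A.decompositionSubgroup ℚ)
      (IsLocalRing.ResidueField A) τ = 1 := hτ
    exact congrArg (fun f => f x) h1
  have key : ∀ u : Dm (M * q) m, RedConst A ((u : (FF (M * q))ˣ) : FF (M * q)) →
      RedConst A (w ((u : (FF (M * q))ˣ) : FF (M * q))) →
      galKum (M * q) m σ' (Kum.mk u) = Kum.mk u := by
    intro u h1 h2
    have h := hc A hA w hw τ (fun x _ => hτ1 x) 1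
      (fun ζ hζ => by
        rw [pow_one, hτσ']
        exact S31.inertia_apply_root A hq hA _ hσ' hqm hζ) u h1 h2
    rwa [one_smul, hτσ'] at h
  rw [galKum_mk, sub_eq_add_neg, ← Kum.mk_inv, ← Kum.mk_mul]
  apply key
  · rw [Subgroup.coe_mul, Units.val_mul, Subgroup.coe_inv, Units.val_inv_eq_inv_val, coe_galU]
    exact redConst_gal_div A g hg _ (f : (FF (M * q))ˣ).ne_zero
  · rw [Subgroup.coe_mul, Units.val_mul, Subgroup.coe_inv, Units.val_inv_eq_inv_val, coe_galU,
      map_mul, map_inv₀, ← hw.galF_comm hq]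
    refine redConst_gal_div A g hg _ ?_
    rw [Ne, map_eq_zero]
    exact (f : (FF (M * q))ˣ).ne_zero

end

end Fermat.Agent.SS
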