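import Fermat.Agent.SS.Formal.KumMap

/-!
# SS/Formal/AL : the Atkin-Lehner involution `w_q` on `F_{Mq}` and on `Kum (M*q) m`

`w : F_{Mq} →ₐ[ℚ̄] F_{Mq}` with `w ∘ α = β`, `w ∘ β = α` (`IsAL M q w`, existence:
`exists_isAL`).  `α = heckeAlphaBar Qb M q` (`f(t) ↦ f(t)`), `β = heckeBetaBar Qb M q`
(`f(t) ↦ f(t^q)`).

PROOF SKETCHES.
* `induction_gen` : `F_{Mq}` is generated over `ℚ̄` by the `j(t^d)`, `d ∣ M q`
  (`S24.exists_phiF_div (N := M*q)`, `S24.coe_phiF`, or `S24.Gen.FN_eq_adjoin`); if `q ∤ d` then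
  `d ∣ M` and `j(t^d) = α (jF M d)`; if `d = q d'` then `d' ∣ M` and `j(t^d) = β (jF M d')`
  (`coe_heckeAlphaBar`, `coe_heckeBetaBar`, `qExpand` of `qExpand`; compare
  `ES/B/H1/AtkinLehner.lean`, which contains exactly this case distinction (`swap`)).
  Only `q.Prime` is needed.
* `invol`, `galF_comm` : by `induction_gen`.  For `galF_comm` on `α f`:
  `galF σ (w (α f)) = galF σ (β f) = β (galF σ f) = w (α (galF σ f)) = w (galF σ (α f))`, all
  checked on Laurent series (`coe_galF`, `coeffMap_Vq`).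
* `wU_mem_Dm` : `Place.ord_restrictAlong w hint Q f`, where `hint : w.toRingHom.IsIntegral` because
  `w` is surjective (`invol`).
-/

set_option autoImplicit false

open AlgebraicCurve ModularCurve

namespace Fermat.Agent.SS

open Fermat.Agent.ES

noncomputable section

variable {M q : ℕ} [NeZero M] [NeZero q]

/-- Induction principle: `F_N` is generated as a field by `ℚ̄` and the `j(t^d)`, `d ∣ N`. -/
theorem induction_FN (N : ℕ) [NeZero N] (P : FF N → Prop)
    (hc : ∀ c : Qb, P (algebraMap Qb (FF N) c))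
    (hgen : ∀ d : S24.Dv N, P (S24.jF N d.1 d.2))
    (hadd : ∀ x y, P x → P y → P (x + y)) (hmul : ∀ x y, P x → P y → P (x * y))
    (hinv : ∀ x, P x → P x⁻¹) (x : FF N) : P x := by
  have key : ∀ a : MvPolynomial (S24.Dv N) Qb, P (S24.phiF N a) := by
    intro a
    induction a using MvPolynomial.induction_on with
    | C c =>
      rw [MvPolynomial.algHom_C]
      exact hc c
    | add a b ha hb =>
      have e : S24.phiF N (a + b) = S24.phiF N a + S24.phiF N b := (S24.phiF N).map_add' a b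
      rw [e]
      exact hadd _ _ ha hb
    | mul_X a d ha =>
      rw [map_mul]
      refine hmul _ _ ha ?_
      have e2 : S24.phiF N (MvPolynomial.X d) = S24.jF N d.1 d.2 :=
        MvPolynomial.aeval_X _ _
      rw [e2]
      exact hgen d
  obtain ⟨a, b, -, rfl⟩ := S24.exists_phiF_div N x
  rw [div_eq_mul_inv]
  exact hmul _ _ (key a) (hinv _ (key b))

/-- Induction principle: `F_{Mq}` is generated as a field by `ℚ̄`, `α(F_M)` and `β(F_M)`. -/
theorem induction_gen (hq : q.Prime) (P : FF (M * q) → Prop)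
    (hc : ∀ c : Qb, P (algebraMap Qb (FF (M * q)) c))
    (hα : ∀ f : FF M, P (heckeAlphaBar Qb M q f)) (hβ : ∀ f : FF M, P (heckeBetaBar Qb M q f))
    (hadd : ∀ x y, P x → P y → P (x + y)) (hmul : ∀ x y, P x → P y → P (x * y))
    (hinv : ∀ x, P x → P x⁻¹) (x : FF (M * q)) : P x := by
  have : NeZero (M * q) := ⟨Nat.mul_ne_zero (NeZero.ne M) (NeZero.ne q)⟩
  have hgen : ∀ d : S24.Dv (M * q), P (S24.jF (M * q) d.1 d.2) := by
    intro d
    by_cases h : q ∣ d.1
    · obtain ⟨e, he⟩ := h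
      have heM : e ∣ M := by
        have h4 : q * e ∣ M * q := he ▸ d.2
        rw [mul_comm M q] at h4
        exact Nat.dvd_of_mul_dvd_mul_left hq.pos h4
      have : NeZero e := ⟨fun h0 => NeZero.ne M (Nat.eq_zero_of_zero_dvd (h0 ▸ heM))⟩
      have : NeZero (q * e) := ⟨Nat.mul_ne_zero (NeZero.ne q) (NeZero.ne e)⟩
      have e1 : S24.jF (M * q) d.1 d.2 = heckeBetaBar Qb M q (S24.jF M e heM) := by
        apply Subtype.ext
        show S24.jSer d.1 = qExpand Qb q (coeffEmb S24.Kb (qExpand ℚ e jq))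
        rw [AtkinLehner.jSer_congr he]
        show coeffEmb S24.Kb (qExpand ℚ (q * e) jq) = _
        rw [← qExpand_qExpand]
        exact coeffMap_qExpand _ _ _
      rw [e1]
      exact hβ _
    · have hdM : d.1 ∣ M := by
        have hc : Nat.Coprime d.1 q := ((Nat.Prime.coprime_iff_not_dvd hq).mpr h).symm
        exact hc.dvd_of_dvd_mul_right d.2
      have e1 : S24.jF (M * q) d.1 d.2 = heckeAlphaBar Qb M q (S24.jF M d.1 hdM) := by
        apply Subtype.ext
        rfl
      rw [e1]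
      exact hα _
  exact induction_FN (M * q) P hc hgen hadd hmul hinv x

theorem galF_alpha (σ : GQ) (f : FF M) :
    galF (M * q) σ (heckeAlphaBar Qb M q f) = heckeAlphaBar Qb M q (galF M σ f) := by
  apply Subtype.ext
  rw [coe_galF, coe_heckeAlphaBar, coe_heckeAlphaBar, coe_galF]

theorem galF_beta (σ : GQ) (f : FF M) :
    galF (M * q) σ (heckeBetaBar Qb M q f) = heckeBetaBar Qb M q (galF M σ f) := by
  apply Subtype.ext
  rw [coe_galF, coe_heckeBetaBar, coe_heckeBetaBar, coe_galF]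
  exact coeffMap_qExpand _ _ _

theorem galF_algebraMap' (N : ℕ) (σ : GQ) (c : Qb) :
    galF N σ (algebraMap Qb (FF N) c) = algebraMap Qb (FF N) (σ c) := by
  apply Subtype.ext
  rw [coe_galF]
  exact coeffMap_algebraMap (σ : Qb →+* Qb) c

variable {w : FF (M * q) →ₐ[Qb] FF (M * q)}

theorem IsAL.invol (hw : IsAL M q w) (hq : q.Prime) (x : FF (M * q)) : w (w x) = x := by
  refine induction_gen hq (fun x => w (w x) = x) ?_ ?_ ?_ ?_ ?_ ?_ x
  · intro c; rw [AlgHom.commutes, AlgHom.commutes]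
  · intro f; rw [hw.alpha, hw.beta]
  · intro f; rw [hw.beta, hw.alpha]
  · intro x y hx hy; rw [map_add, map_add, hx, hy]
  · intro x y hx hy; rw [map_mul, map_mul, hx, hy]
  · intro x hx; rw [map_inv₀, map_inv₀, hx]

theorem IsAL.galF_comm (hw : IsAL M q w) (hq : q.Prime) (σ : GQ) (x : FF (M * q)) :
    galF (M * q) σ (w x) = w (galF (M * q) σ x) := by
  refine induction_gen hq (fun x => galF (M * q) σ (w x) = w (galF (M * q) σ x))
    ?_ ?_ ?_ ?_ ?_ ?_ x
  · intro c; rw [AlgHom.commutes, galF_algebraMap', AlgHom.commutes]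
  · intro f; rw [hw.alpha, galF_beta, galF_alpha, hw.alpha]
  · intro f; rw [hw.beta, galF_beta, galF_alpha, hw.beta]
  · intro x y hx hy; rw [map_add, map_add, map_add, map_add, hx, hy]
  · intro x y hx hy; rw [map_mul, map_mul, map_mul, map_mul, hx, hy]
  · intro x hx; rw [map_inv₀, map_inv₀, map_inv₀, map_inv₀, hx]

/-- `w` on units. -/
def wU (w : FF (M * q) →ₐ[Qb] FF (M * q)) : (FF (M * q))ˣ →* (FF (M * q))ˣ :=
  Units.map (w : FF (M * q) →* FF (M * q))

@[simp]
theorem coe_wU (f : (FF (M * q))ˣ) : ((wU w f : (FF (M * q))ˣ) : FF (M * q)) = w f := rfl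

theorem IsAL.wU_mem_Dm (hw : IsAL M q w) (hq : q.Prime) {m : ℕ} {f : (FF (M * q))ˣ}
    (hf : f ∈ Dm (M * q) m) : wU w f ∈ Dm (M * q) m := by
  have hint : w.toRingHom.IsIntegral :=
    RingHom.isIntegral_of_surjective _ (fun x => ⟨w x, hw.invol hq x⟩)
  intro Q
  rw [coe_wU, Place.ord_restrictAlong w hint Q (f : FF (M * q))]
  exact Dvd.dvd.mul_left (hf _) _

/-- `w` on the Kummer module. -/
def wKum (hw : IsAL M q w) (hq : q.Prime) (m : ℕ) : Kum (M * q) m →+ Kum (M * q) m :=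
  kumMap (wU w) (fun _ hf => hw.wU_mem_Dm hq hf)

theorem wKum_mk (hw : IsAL M q w) (hq : q.Prime) {m : ℕ} (f : Dm (M * q) m) :
    wKum hw hq m (Kum.mk f) = Kum.mk ⟨wU w f, hw.wU_mem_Dm hq f.2⟩ := rfl

theorem wKum_wKum (hw : IsAL M q w) (hq : q.Prime) {m : ℕ} (x : Kum (M * q) m) :
    wKum hw hq m (wKum hw hq m x) = x := by
  obtain ⟨f, rfl⟩ := Kum.mk_surjective x
  rw [wKum_mk, wKum_mk]
  exact mk_congr (hw.invol hq _)

theorem galKum_wKum (hw : IsAL M q w) (hq : q.Prime) {m : ℕ} (σ : GQ) (x : Kum (M * q) m) :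
    galKum (M * q) m σ (wKum hw hq m x) = wKum hw hq m (galKum (M * q) m σ x) := by
  obtain ⟨f, rfl⟩ := Kum.mk_surjective x
  rw [wKum_mk, galKum_mk, galKum_mk, wKum_mk]
  exact mk_congr (hw.galF_comm hq σ _)

end

end Fermat.Agent.SS
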