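import Fermat.Agent.SS.Defs

/-!
# SS/Formal/Red : calculus of reductions modulo the Gauss valuation of `A((t))`

`RedTo A x r` : `x = y₁ / y₂` with `y₁ y₂ ∈ A((t))`, `ȳ₂ ≠ 0`, `ȳ₁ = r ȳ₂`.
Everything here is formal (`k_A((t))` is a field; `ES/B/Red.lean`, `ES/B/Formal.lean`,
`ES/B/Pivot.lean` contain all the needed facts on `coeffMap`, `Vq`, `twistProd`, `galA`).

PROOF SKETCHES.
* `one`, `mul`, `pow` : multiply numerators and denominators.
* `inv` : swap `y₁`, `y₂` (`ȳ₁ = r ȳ₂ ≠ 0`).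
* `unique` : `y₁ y₂' = y₁' y₂` in `A((t))` (`coeffMap_subtype_injective`), reduce, cancel.
* `vq` : apply `Vq` (`coeffMap_Vq`, `Vq_injective`).
* `tprod` : `twistProd_mul`, `coeffMap_twistProd _ _ (bijective_restrict_subtype A q)`,
  `coeffMap_res_twistProd`.
* `gal` : apply `coeffMap (galA g)` (`coeffMap_subtype_galA`, `coeffMap_coeffMap`); `f` is injective
  (a ring hom of fields), `coeffMap_ne_zero_of_injective`.
* `const` : if `cst d * y₂ = y₁`, choose `n` with `res (y₂.coeff n) ≠ 0`, i.e. `y₂.coeff n` a unit of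
  `A`; `d = y₁.coeff n / y₂.coeff n ∈ A`.
* `exists_redTo` : `ES.exists_integral_fraction`.
* `of_Vq` : by `exists_redTo`, `RedTo (cst c₀ * x) r₀`; so `RedTo (cst c₀ * Vq x) (Vq r₀)`; divide:
  `RedTo (cst (c / c₀)) (Vq r / Vq r₀)`; by `const` `c / c₀ = a ∈ A` and `Vq r = cst ā * Vq r₀
  = Vq (cst ā * r₀)`; so `r = cst ā * r₀` and `cst c * x = cst a * (cst c₀ * x)`.
* `redConst_of_redTo` : `u = c₀⁻¹ a / b` by `ES.exists_integral_fraction`, with `a b ∈ F_N ∩ A((t))`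
  of nonzero reduction; `RedTo (cst (c / c₀)) (b̄ / ā)`, so `c / c₀ = d ∈ A` by `const`, and
  `y₁ := d a`, `y₂ := b` do the job.
-/

set_option autoImplicit false

open AlgebraicCurve ModularCurve

namespace Fermat.Agent.SS

open Fermat.Agent.ES

noncomputable section

/-- constants in `ℚ̄((t))` -/
abbrev cst (c : Qb) : LaurentSeries Qb := algebraMap Qb (LaurentSeries Qb) c

variable {A : ValuationSubring Qb}

/-- constants in `k_A((t))` -/
abbrev cstk (A : ValuationSubring Qb) (c : kA A) : LaurentSeries (kA A) :=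
  algebraMap (kA A) (LaurentSeries (kA A)) c

variable {x x' : LaurentSeries Qb} {r r' : LaurentSeries (kA A)}

theorem RedTo.one : RedTo A 1 1 := by
  refine ⟨1, 1, ?_, ?_, ?_⟩
  · rw [map_one]; exact one_ne_zero
  · rw [map_one, mul_one]
  · rw [map_one, mul_one]

theorem RedTo.mul (h : RedTo A x r) (h' : RedTo A x' r') : RedTo A (x * x') (r * r') := by
  obtain ⟨y₁, y₂, h0, h1, h2⟩ := h
  obtain ⟨z₁, z₂, k0, k1, k2⟩ := h'
  refine ⟨y₁ * z₁, y₂ * z₂, ?_, ?_, ?_⟩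
  · rw [map_mul]; exact mul_ne_zero h0 k0
  · rw [map_mul, map_mul, ← h1, ← k1]; ring
  · rw [map_mul, map_mul, h2, k2]; ring

theorem RedTo.pow (h : RedTo A x r) (n : ℕ) : RedTo A (x ^ n) (r ^ n) := by
  induction n with
  | zero => simpa using RedTo.one
  | succ n ih => rw [pow_succ, pow_succ]; exact ih.mul h

theorem RedTo.inv (h : RedTo A x r) (hr : r ≠ 0) : RedTo A x⁻¹ r⁻¹ := by
  obtain ⟨y₁, y₂, h0, h1, h2⟩ := h
  have h3 : coeffMap (resA A) y₁ ≠ 0 := by rw [h2]; exact mul_ne_zero hr h0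
  have h4 : coeffMap A.subtype y₁ ≠ 0 := coeffMap_subtype_ne_zero h3
  have hx : x ≠ 0 := by
    rintro rfl
    rw [zero_mul] at h1
    exact h4 h1.symm
  refine ⟨y₂, y₁, h3, ?_, ?_⟩
  · rw [← h1, inv_mul_cancel_left₀ hx]
  · rw [h2, inv_mul_cancel_left₀ hr]

theorem RedTo.unique (h : RedTo A x r) (h' : RedTo A x r') : r = r' := by
  obtain ⟨y₁, y₂, h0, h1, h2⟩ := h
  obtain ⟨z₁, z₂, k0, k1, k2⟩ := h'
  have e : y₁ * z₂ = z₁ * y₂ := by
    apply coeffMap_subtype_injective A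
    rw [map_mul, map_mul, ← h1, ← k1]; ring
  have e' := congrArg (coeffMap (resA A)) e
  rw [map_mul, map_mul, h2, k2] at e'
  have e'' : r * (coeffMap (resA A) y₂ * coeffMap (resA A) z₂)
      = r' * (coeffMap (resA A) y₂ * coeffMap (resA A) z₂) := by
    linear_combination e'
  exact mul_right_cancel₀ (mul_ne_zero h0 k0) e''

theorem RedTo.congr (h : RedTo A x r) (hx : x = x') (hr : r = r') : RedTo A x' r' := by
  subst hx; subst hr; exact h

theorem RedTo.vq (ℓ : ℕ) [NeZero ℓ] (h : RedTo A x r) :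
    RedTo A (Vq Qb ℓ x) (Vq (kA A) ℓ r) := by
  obtain ⟨y₁, y₂, h0, h1, h2⟩ := h
  refine ⟨Vq A ℓ y₁, Vq A ℓ y₂, ?_, ?_, ?_⟩
  · rw [coeffMap_Vq]
    intro h
    exact h0 (Vq_injective ℓ (by rw [h, map_zero]))
  · rw [coeffMap_Vq, coeffMap_Vq, ← map_mul, h1]
  · rw [coeffMap_Vq, coeffMap_Vq, ← map_mul, h2]

theorem RedTo.tprod {q : ℕ} [NeZero q] (hq : q.Prime) (hA : A.LiesOverPrime q)
    (h : RedTo A x r) : RedTo A (twistProd q x) (r ^ q) := by
  obtain ⟨y₁, y₂, h0, h1, h2⟩ := h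
  refine ⟨twistProd q y₁, twistProd q y₂, ?_, ?_, ?_⟩
  · rw [coeffMap_res_twistProd hq hA]
    exact pow_ne_zero _ h0
  · rw [coeffMap_twistProd _ _ (bijective_restrict_subtype A q),
      coeffMap_twistProd _ _ (bijective_restrict_subtype A q), ← twistProd_mul, h1]
  · rw [coeffMap_res_twistProd hq hA, coeffMap_res_twistProd hq hA, h2, mul_pow]

theorem RedTo.gal (g : A.decompositionSubgroup ℚ) (f : kA A →+* kA A)
    (hg : (resA A).comp (galA g) = f.comp (resA A)) (h : RedTo A x r) :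
    RedTo A (coeffMap (((g : GQ) : Qb →+* Qb)) x) (coeffMap f r) := by
  obtain ⟨y₁, y₂, h0, h1, h2⟩ := h
  have key : ∀ y : LaurentSeries A, coeffMap (resA A) (coeffMap (galA g) y)
      = coeffMap f (coeffMap (resA A) y) := fun y => by
    rw [coeffMap_coeffMap, coeffMap_coeffMap, hg]
  refine ⟨coeffMap (galA g) y₁, coeffMap (galA g) y₂, ?_, ?_, ?_⟩
  · rw [key]
    exact coeffMap_ne_zero_of_injective f f.injective h0
  · rw [coeffMap_subtype_galA, coeffMap_subtype_galA, ← map_mul, h1]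
  · rw [key, key, h2, map_mul]

/-- an integral constant -/
theorem RedTo.cst_of_mem (a : A) : RedTo A (cst (a : Qb)) (cstk A (resA A a)) := by
  refine ⟨HahnSeries.single 0 a, 1, ?_, ?_, ?_⟩
  · rw [map_one]; exact one_ne_zero
  · rw [map_one, mul_one, coeffMap_single, cst, algebraMap_laurentSeries_eq_single]
    rfl
  · rw [map_one, mul_one, coeffMap_single, cstk, algebraMap_laurentSeries_eq_single]

theorem coeff_cst_mul (c : Qb) (x : LaurentSeries Qb) (n : ℤ) :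
    (cst c * x).coeff n = c * x.coeff n := by
  rw [cst, algebraMap_laurentSeries_eq_single, HahnSeries.coeff_single_mul, sub_zero]

theorem coeff_cstk_mul (c : kA A) (x : LaurentSeries (kA A)) (n : ℤ) :
    (cstk A c * x).coeff n = c * x.coeff n := by
  rw [cstk, algebraMap_laurentSeries_eq_single, HahnSeries.coeff_single_mul, sub_zero]

/-- a constant which is Gauss-integral is integral. -/
theorem RedTo.const {d : Qb} (h : RedTo A (cst d) r) :
    ∃ a : A, (a : Qb) = d ∧ r = cstk A (resA A a) := by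
  obtain ⟨y₁, y₂, h0, h1, h2⟩ := id h
  obtain ⟨n, hn⟩ : ∃ n, (coeffMap (resA A) y₂).coeff n ≠ 0 := by
    by_contra hcon
    push Not at hcon
    exact h0 (HahnSeries.ext (funext hcon))
  rw [coeffMap_coeff] at hn
  have hu : IsUnit (y₂.coeff n) := by
    by_contra hu
    exact hn ((IsLocalRing.residue_eq_zero_iff _).mpr ((IsLocalRing.mem_maximalIdeal _).mpr hu))
  obtain ⟨u, hu⟩ := hu
  have e := congrArg (fun s => s.coeff n) h1
  simp only [coeff_cst_mul, coeffMap_coeff] at e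
  have hd : (((y₁.coeff n * (u⁻¹ : Aˣ) : A)) : Qb) = d := by
    have hu1 : ((y₂.coeff n : A) : Qb) * (((u⁻¹ : Aˣ) : A) : Qb) = 1 := by
      rw [← hu]
      exact_mod_cast congrArg (Subtype.val) (u.mul_inv)
    have e' : d * ((y₂.coeff n : A) : Qb) = ((y₁.coeff n : A) : Qb) := e
    push_cast
    rw [← e', mul_assoc, hu1, mul_one]
  refine ⟨y₁.coeff n * (u⁻¹ : Aˣ), hd, ?_⟩
  have := RedTo.cst_of_mem (y₁.coeff n * (u⁻¹ : Aˣ) : A)
  rw [hd] at this
  exact h.unique this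

/-- **Pivot**: every nonzero function has, up to a constant, a nonzero reduction. -/
theorem exists_redTo (A : ValuationSubring Qb) {N : ℕ} [NeZero N] (f : FF N) (hf : f ≠ 0) :
    ∃ (c : Qb) (r : LaurentSeries (kA A)), c ≠ 0 ∧ r ≠ 0 ∧
      RedTo A (cst c * (f : LaurentSeries Qb)) r := by
  obtain ⟨c, a, b, hc, -, -, ha, hb, e⟩ := ES.exists_integral_fraction N A f hf
  refine ⟨c⁻¹, coeffMap (resA A) a / coeffMap (resA A) b, inv_ne_zero hc, div_ne_zero ha hb,
    a, b, hb, ?_, ?_⟩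
  · rw [mul_assoc, e, ← mul_assoc, ← map_mul, inv_mul_cancel₀ hc, map_one, one_mul]
  · rw [div_mul_cancel₀ _ hb]

theorem Vq_cst (ℓ : ℕ) [NeZero ℓ] (c : Qb) : Vq Qb ℓ (cst c) = cst c := by
  rw [cst, algebraMap_laurentSeries_eq_single, qExpand_single, mul_zero]

theorem Vq_cstk (ℓ : ℕ) [NeZero ℓ] (c : kA A) : Vq (kA A) ℓ (cstk A c) = cstk A c := by
  rw [cstk, algebraMap_laurentSeries_eq_single, qExpand_single, mul_zero]

theorem RedTo.of_Vq {N : ℕ} [NeZero N] (ℓ : ℕ) [NeZero ℓ] (f : FF N) (hf : f ≠ 0) (c : Qb)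
    (hr : r ≠ 0) (h : RedTo A (cst c * Vq Qb ℓ (f : LaurentSeries Qb)) (Vq (kA A) ℓ r)) :
    RedTo A (cst c * (f : LaurentSeries Qb)) r := by
  obtain ⟨c₀, r₀, hc₀, hr₀, h₀⟩ := exists_redTo A f hf
  have hf' : (f : LaurentSeries Qb) ≠ 0 := fun h => hf (Subtype.ext h)
  have hVf : Vq Qb ℓ (f : LaurentSeries Qb) ≠ 0 := fun h =>
    hf' (Vq_injective ℓ (by rw [h, map_zero]))
  have hVr₀ : Vq (kA A) ℓ r₀ ≠ 0 := fun h => hr₀ (Vq_injective ℓ (by rw [h, map_zero]))
  have hc₀' : cst c₀ ≠ 0 := by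
    rw [Ne, map_eq_zero]; exact hc₀
  have h1 := h₀.vq ℓ
  rw [map_mul, Vq_cst] at h1
  have h2 := h.mul (h1.inv hVr₀)
  have h3 : cst c * Vq Qb ℓ (f : LaurentSeries Qb) * (cst c₀ * Vq Qb ℓ (f : LaurentSeries Qb))⁻¹
      = cst (c / c₀) := by
    have e1 : cst (c / c₀) = cst c / cst c₀ := map_div₀ _ _ _
    rw [e1]
    field_simp
  rw [h3] at h2
  obtain ⟨a, ha, hra⟩ := h2.const
  have h4 : Vq (kA A) ℓ r = Vq (kA A) ℓ (cstk A (resA A a) * r₀) := by
    rw [map_mul, Vq_cstk, ← hra, inv_mul_cancel_right₀ hVr₀]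
  have h5 : r = cstk A (resA A a) * r₀ := Vq_injective ℓ h4
  have h6 := (RedTo.cst_of_mem a).mul h₀
  refine h6.congr ?_ h5.symm
  rw [ha, ← mul_assoc, ← map_mul, div_mul_cancel₀ _ hc₀]

/-- The bridge to the quotient form used in `Crux2`. -/
theorem redConst_of_redTo {N : ℕ} [NeZero N] (u : FF N) (c : Qb) (hc : c ≠ 0)
    (h : RedTo A (cst c * (u : LaurentSeries Qb)) 1) : RedConst A u := by
  have hu : u ≠ 0 := by
    rintro rfl
    have h0 : RedTo A (cst c * ((0 : FF N) : LaurentSeries Qb)) 0 := by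
      refine ⟨0, 1, ?_, ?_, ?_⟩
      · rw [map_one]; exact one_ne_zero
      · simp
      · simp
    exact one_ne_zero (h.unique h0)
  obtain ⟨c₀, a, b, hc₀, haF, hbF, ha, hb, e⟩ := ES.exists_integral_fraction N A u hu
  -- `cst c₀⁻¹ * u` reduces to `ā / b̄`
  have h₀ : RedTo A (cst c₀⁻¹ * (u : LaurentSeries Qb))
      (coeffMap (resA A) a / coeffMap (resA A) b) := by
    refine ⟨a, b, hb, ?_, ?_⟩
    · rw [mul_assoc, e, ← mul_assoc, ← map_mul, inv_mul_cancel₀ hc₀, map_one, one_mul]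
    · rw [div_mul_cancel₀ _ hb]
  have hu' : (u : LaurentSeries Qb) ≠ 0 := fun h => hu (Subtype.ext h)
  have hc₀' : cst c₀ ≠ 0 := by
    rw [Ne, map_eq_zero]; exact hc₀
  have h2 := h.mul (h₀.inv (div_ne_zero ha hb))
  have h3 : cst c * (u : LaurentSeries Qb) * (cst c₀⁻¹ * (u : LaurentSeries Qb))⁻¹
      = cst (c * c₀) := by
    have e1 : cst (c * c₀) = cst c * cst c₀ := map_mul _ _ _
    have e2 : cst c₀⁻¹ = (cst c₀)⁻¹ := map_inv₀ _ _
    rw [e1, e2]
    field_simp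
  rw [h3] at h2
  obtain ⟨d, hd, hrd⟩ := h2.const
  refine ⟨c, HahnSeries.single 0 d * a, b, hc, ?_, hbF, ?_, hb, ?_⟩
  · rw [map_mul, coeffMap_single]
    refine mul_mem ?_ haF
    have : HahnSeries.single (0 : ℤ) (A.subtype d) = algebraMap Qb (LaurentSeries Qb) (d : Qb) := by
      rw [algebraMap_laurentSeries_eq_single]; rfl
    rw [this]
    exact IntermediateField.algebraMap_mem _ _
  · rw [map_mul, coeffMap_single]
    have : HahnSeries.single (0 : ℤ) (resA A d) = cstk A (resA A d) := by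
      rw [cstk, algebraMap_laurentSeries_eq_single]
    rw [this, ← hrd, one_mul, inv_div, div_mul_cancel₀ _ ha]
  · rw [map_mul, coeffMap_single]
    have : HahnSeries.single (0 : ℤ) (A.subtype d) = cst (c * c₀) := by
      rw [cst, algebraMap_laurentSeries_eq_single, ← hd]; rfl
    rw [this, mul_assoc, e, cst, map_mul]
    ring

end

end Fermat.Agent.SS
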