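import Fermat.Agent.SS.Formal.AL

/-!
# SS/Formal/Norm : the degeneracy maps between levels `M q` and `M`

* `normA M q : F_{Mq} →* F_M` : the norm along `α` (`f(t) ↦ f(t)`), of degree `q + 1`.
* `Vq_normA` : `(Nm x)(t^q) = x(t^q) * ∏_{z^q = 1} (w x)(z t)`.
* `nmKum : Kum (M*q) m →+ Kum M m`, `pullA pullB : Kum M m →+ Kum (M*q) m`.

PROOF SKETCHES.
* `Vq_normA` : VERBATIM the proof of `ES.Vq_heckeNorm` (`ES/B/HeckeNorm.lean`) with
  `heckeBetaBar Qb N ℓ f` replaced by an arbitrary `x` (use `H1.embAll`, `H1.embAll_injective`,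
  `H1.card_roots`, `finrankAlong_heckeAlpha`, `H1.embAll_none_apply`, `H1.embAll_some_apply`,
  `H1.infHom_apply`, `H1.zHom_apply`).
* `normA_mem_Dm` : `ES.dvd_ord_norm` (see `ES.dvd_ord_heckeNorm`).
* `galF_normA` : apply `Vq` (injective) and `Vq_normA` on both sides; `coeffMap_Vq`,
  `coeffMap_twistProd _ _ (bijective_restrictRootsOfUnity_equiv σ.toRingEquiv q)`, `IsAL.galF_comm`.
* `alphaU_mem_Dm`, `betaU_mem_Dm` : `Place.ord_restrictAlong` with `heckeAlphaBarIntegral`,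
  `heckeBetaBarIntegral` (`ES/B/H1/Degree.lean`), as in `ES.dvd_ord_heckeNorm`.
-/

set_option autoImplicit false
set_option linter.style.haveILetI false

open AlgebraicCurve ModularCurve

namespace Fermat.Agent.SS

open Fermat.Agent.ES

noncomputable section

/-- The norm along `α : F_M → F_{Mq}`. -/
def normA (M q : ℕ) [NeZero M] [NeZero q] : FF (M * q) →* FF M :=
  letI := algebraAlong (heckeAlphaBar Qb M q)
  Algebra.norm (FF M)

variable {M q : ℕ} [NeZero M] [NeZero q] {w : FF (M * q) →ₐ[Qb] FF (M * q)}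

theorem Vq_normA (hq : q.Prime) (hqM : ¬ q ∣ M) (hw : IsAL M q w) (x : FF (M * q)) :
    Vq Qb q ((normA M q x : FF M) : LaurentSeries Qb)
      = Vq Qb q (x : LaurentSeries Qb) * twistProd q ((w x : FF (M * q)) : LaurentSeries Qb) := by
  have hw1 := hw.alpha
  have hw2 := hw.beta
  letI := algebraAlong (heckeAlphaBar Qb M q)
  letI := (H1.baseHom M q).toAlgebra
  haveI : FiniteDimensional (FF M) (FF (M * q)) := finiteAlong_heckeAlpha M q
  have hnorm := Algebra.norm_eq_prod_embeddings (FF M) H1.Om x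
  have hcard : Fintype.card (Option (rootsOfUnity q Qb))
      = Fintype.card (FF (M * q) →ₐ[FF M] H1.Om) := by
    rw [AlgHom.card, Fintype.card_option, H1.card_roots]
    exact (finrankAlong_heckeAlpha M q hq hqM).symm
  have hbij : Function.Bijective (H1.embAll M q w hw1) :=
    (Fintype.bijective_iff_injective_and_card _).mpr
      ⟨H1.embAll_injective M q hq w hw1 hw2, hcard⟩
  rw [← Fintype.prod_bijective (H1.embAll M q w hw1) hbij
    (fun o => H1.embAll M q w hw1 o x) _ (fun _ => rfl),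
    Fintype.prod_option] at hnorm
  apply H1.io_injective
  have h1 : algebraMap (FF M) H1.Om (Algebra.norm (FF M) x)
      = H1.io (Vq Qb q ((normA M q x : FF M) : LaurentSeries Qb)) := rfl
  rw [← h1, hnorm, H1.embAll_none_apply, H1.infHom_apply, map_mul, twistProd, map_prod]
  congr 1

theorem normA_ne_zero {x : FF (M * q)} (hx : x ≠ 0) : normA M q x ≠ 0 := by
  intro h
  have h1 : normA M q x * normA M q x⁻¹ = 1 := by rw [← map_mul, mul_inv_cancel₀ hx, map_one]
  rw [h, zero_mul] at h1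
  exact zero_ne_one h1

theorem coeffMap_gal_twistProd (σ : GQ) (ℓ : ℕ) [NeZero ℓ] (x : LaurentSeries Qb) :
    coeffMap (σ : Qb →+* Qb) (twistProd ℓ x) = twistProd ℓ (coeffMap (σ : Qb →+* Qb) x) :=
  coeffMap_twistProd _ ℓ (bijective_restrictRootsOfUnity_equiv σ.toRingEquiv ℓ) x

theorem galF_normA (hq : q.Prime) (hqM : ¬ q ∣ M) (σ : GQ) (x : FF (M * q)) :
    galF M σ (normA M q x) = normA M q (galF (M * q) σ x) := by
  obtain ⟨w, hw⟩ := exists_isAL M q hq hqM
  apply Subtype.ext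
  apply Vq_injective (R := Qb) q
  rw [coe_galF, ← coeffMap_Vq, Vq_normA hq hqM hw, Vq_normA hq hqM hw, map_mul, coeffMap_Vq,
    coeffMap_gal_twistProd, coe_galF, ← hw.galF_comm hq, coe_galF]

/-- the norm on units -/
def normU (M q : ℕ) [NeZero M] [NeZero q] : (FF (M * q))ˣ →* (FF M)ˣ := Units.map (normA M q)

@[simp]
theorem coe_normU (f : (FF (M * q))ˣ) : ((normU M q f : (FF M)ˣ) : FF M) = normA M q f := rfl

theorem normU_mem_Dm {m : ℕ} {f : (FF (M * q))ˣ} (hf : f ∈ Dm (M * q) m) :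
    normU M q f ∈ Dm M m := by
  intro P
  letI := algebraAlong (heckeAlphaBar Qb M q)
  haveI := isScalarTower_along (heckeAlphaBar Qb M q)
  haveI : Module.Finite (FF M) (FF (M * q)) := finiteAlong_heckeAlpha M q
  exact dvd_ord_norm m (f : FF (M * q)) f.ne_zero hf P

/-- `α` on units -/
def alphaU (M q : ℕ) [NeZero M] [NeZero q] : (FF M)ˣ →* (FF (M * q))ˣ :=
  Units.map (heckeAlphaBar Qb M q : FF M →* FF (M * q))

/-- `β` on units -/
def betaU (M q : ℕ) [NeZero M] [NeZero q] : (FF M)ˣ →* (FF (M * q))ˣ :=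
  Units.map (heckeBetaBar Qb M q : FF M →* FF (M * q))

@[simp]
theorem coe_alphaU (f : (FF M)ˣ) :
    ((alphaU M q f : (FF (M * q))ˣ) : FF (M * q)) = heckeAlphaBar Qb M q f := rfl

@[simp]
theorem coe_betaU (f : (FF M)ˣ) :
    ((betaU M q f : (FF (M * q))ˣ) : FF (M * q)) = heckeBetaBar Qb M q f := rfl

theorem alphaU_mem_Dm {m : ℕ} {f : (FF M)ˣ} (hf : f ∈ Dm M m) : alphaU M q f ∈ Dm (M * q) m := by
  intro Q
  rw [coe_alphaU, Place.ord_restrictAlong (heckeAlphaBar Qb M q) (heckeAlphaBarIntegral M q) Q f]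
  exact Dvd.dvd.mul_left (hf _) _

theorem betaU_mem_Dm {m : ℕ} {f : (FF M)ˣ} (hf : f ∈ Dm M m) : betaU M q f ∈ Dm (M * q) m := by
  intro Q
  rw [coe_betaU, Place.ord_restrictAlong (heckeBetaBar Qb M q) (heckeBetaBarIntegral M q) Q f]
  exact Dvd.dvd.mul_left (hf _) _

/-- The norm `Kum (M*q) m → Kum M m`. -/
def nmKum (M q m : ℕ) [NeZero M] [NeZero q] : Kum (M * q) m →+ Kum M m :=
  kumMap (normU M q) (fun _ hf => normU_mem_Dm hf)

/-- The pull-back along `α`. -/
def pullA (M q m : ℕ) [NeZero M] [NeZero q] : Kum M m →+ Kum (M * q) m :=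
  kumMap (alphaU M q) (fun _ hf => alphaU_mem_Dm hf)

/-- The pull-back along `β`. -/
def pullB (M q m : ℕ) [NeZero M] [NeZero q] : Kum M m →+ Kum (M * q) m :=
  kumMap (betaU M q) (fun _ hf => betaU_mem_Dm hf)

theorem nmKum_mk {m : ℕ} (f : Dm (M * q) m) :
    nmKum M q m (Kum.mk f) = Kum.mk ⟨normU M q f, normU_mem_Dm f.2⟩ := rfl

theorem pullA_mk {m : ℕ} (f : Dm M m) :
    pullA M q m (Kum.mk f) = Kum.mk ⟨alphaU M q f, alphaU_mem_Dm f.2⟩ := rfl

theorem pullB_mk {m : ℕ} (f : Dm M m) :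
    pullB M q m (Kum.mk f) = Kum.mk ⟨betaU M q f, betaU_mem_Dm f.2⟩ := rfl

theorem galKum_nmKum (hq : q.Prime) (hqM : ¬ q ∣ M) {m : ℕ} (σ : GQ) (x : Kum (M * q) m) :
    galKum M m σ (nmKum M q m x) = nmKum M q m (galKum (M * q) m σ x) := by
  obtain ⟨f, rfl⟩ := Kum.mk_surjective x
  rw [nmKum_mk, galKum_mk, galKum_mk, nmKum_mk]
  exact mk_congr (galF_normA hq hqM σ _)

theorem galKum_pullA {m : ℕ} (σ : GQ) (x : Kum M m) :
    galKum (M * q) m σ (pullA M q m x) = pullA M q m (galKum M m σ x) := by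
  obtain ⟨f, rfl⟩ := Kum.mk_surjective x
  rw [pullA_mk, galKum_mk, galKum_mk, pullA_mk]
  exact mk_congr (galF_alpha σ _)

theorem galKum_pullB {m : ℕ} (σ : GQ) (x : Kum M m) :
    galKum (M * q) m σ (pullB M q m x) = pullB M q m (galKum M m σ x) := by
  obtain ⟨f, rfl⟩ := Kum.mk_surjective x
  rw [pullB_mk, galKum_mk, galKum_mk, pullB_mk]
  exact mk_congr (galF_beta σ _)

end

end Fermat.Agent.SS
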