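import Fermat.Agent.SS.Formal.Red

/-!
# SS/Formal/RedUp : reduction up to a nonzero constant
-/

set_option autoImplicit false

open AlgebraicCurve ModularCurve

namespace Fermat.Agent.SS

open Fermat.Agent.ES

noncomputable section

variable {A : ValuationSubring Qb}

/-- `x` reduces to `r` up to a nonzero constant of `ℚ̄`. -/
def RedUp (A : ValuationSubring Qb) (x : LaurentSeries Qb) (r : LaurentSeries (kA A)) : Prop :=
  ∃ c : Qb, c ≠ 0 ∧ RedTo A (cst c * x) r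

variable {x x' : LaurentSeries Qb} {r r' : LaurentSeries (kA A)}

theorem RedUp.congr (h : RedUp A x r) (hx : x = x') (hr : r = r') : RedUp A x' r' := by
  subst hx; subst hr; exact h

theorem RedUp.mul (h : RedUp A x r) (h' : RedUp A x' r') : RedUp A (x * x') (r * r') := by
  obtain ⟨c, hc, h⟩ := h
  obtain ⟨c', hc', h'⟩ := h'
  refine ⟨c * c', mul_ne_zero hc hc', (h.mul h').congr ?_ rfl⟩
  rw [cst, cst, cst, map_mul]
  ring

theorem RedUp.pow (h : RedUp A x r) (n : ℕ) : RedUp A (x ^ n) (r ^ n) := by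
  obtain ⟨c, hc, h⟩ := h
  refine ⟨c ^ n, pow_ne_zero n hc, (h.pow n).congr ?_ rfl⟩
  rw [cst, cst, map_pow, mul_pow]

theorem RedUp.inv (h : RedUp A x r) (hr : r ≠ 0) : RedUp A x⁻¹ r⁻¹ := by
  obtain ⟨c, hc, h⟩ := h
  refine ⟨c⁻¹, inv_ne_zero hc, (h.inv hr).congr ?_ rfl⟩
  rw [cst, cst, map_inv₀, mul_inv]

theorem RedUp.vq (ℓ : ℕ) [NeZero ℓ] (h : RedUp A x r) :
    RedUp A (Vq Qb ℓ x) (Vq (kA A) ℓ r) := by
  obtain ⟨c, hc, h⟩ := h
  refine ⟨c, hc, (h.vq ℓ).congr ?_ rfl⟩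
  rw [map_mul, Vq_cst]

theorem twist_cst (z : Qbˣ) (c : Qb) : twist z (cst c) = cst c := by
  ext n
  rw [twist_coeff, cst, algebraMap_laurentSeries_eq_single, HahnSeries.coeff_single]
  split_ifs with h
  · subst h; simp
  · simp

theorem twistProd_cst (q : ℕ) [NeZero q] (c : Qb) : twistProd q (cst c) = cst (c ^ q) := by
  unfold twistProd
  have h : ∀ z ∈ (Finset.univ : Finset (rootsOfUnity q Qb)), twist (z : Qbˣ) (cst c) = cst c :=
    fun z _ => twist_cst (z : Qbˣ) c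
  rw [Finset.prod_congr rfl h, Finset.prod_const, Finset.card_univ,
    H1.card_roots, cst, cst, map_pow]

theorem RedUp.tprod {q : ℕ} [NeZero q] (hq : q.Prime) (hA : A.LiesOverPrime q)
    (h : RedUp A x r) : RedUp A (twistProd q x) (r ^ q) := by
  obtain ⟨c, hc, h⟩ := h
  refine ⟨c ^ q, pow_ne_zero q hc, (h.tprod hq hA).congr ?_ rfl⟩
  rw [twistProd_mul, twistProd_cst]

theorem coeffMap_gal_cst (σ : GQ) (c : Qb) :
    coeffMap ((σ : Qb →+* Qb)) (cst c) = cst (σ c) := by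
  rw [cst, cst, algebraMap_laurentSeries_eq_single, algebraMap_laurentSeries_eq_single,
    coeffMap_single]
  rfl

theorem RedUp.gal (g : A.decompositionSubgroup ℚ) (f : kA A →+* kA A)
    (hg : (resA A).comp (galA g) = f.comp (resA A)) (h : RedUp A x r) :
    RedUp A (coeffMap (((g : GQ) : Qb →+* Qb)) x) (coeffMap f r) := by
  obtain ⟨c, hc, h⟩ := h
  refine ⟨(g : GQ) c, by rw [Ne, map_eq_zero]; exact hc, (h.gal g f hg).congr ?_ rfl⟩
  rw [map_mul, coeffMap_gal_cst]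

theorem exists_redUp (A : ValuationSubring Qb) {N : ℕ} [NeZero N] (f : FF N) (hf : f ≠ 0) :
    ∃ r : LaurentSeries (kA A), r ≠ 0 ∧ RedUp A (f : LaurentSeries Qb) r := by
  obtain ⟨c, r, hc, hr, h⟩ := exists_redTo A f hf
  exact ⟨r, hr, c, hc, h⟩

theorem RedUp.of_Vq {N : ℕ} [NeZero N] (ℓ : ℕ) [NeZero ℓ] (f : FF N) (hf : f ≠ 0)
    (hr : r ≠ 0) (h : RedUp A (Vq Qb ℓ (f : LaurentSeries Qb)) (Vq (kA A) ℓ r)) :
    RedUp A (f : LaurentSeries Qb) r := by
  obtain ⟨c, hc, h⟩ := h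
  exact ⟨c, hc, RedTo.of_Vq ℓ f hf c hr h⟩

theorem redConst_of_redUp {N : ℕ} [NeZero N] (u : FF N)
    (h : RedUp A (u : LaurentSeries Qb) 1) : RedConst A u := by
  obtain ⟨c, hc, h⟩ := h
  exact redConst_of_redTo u c hc h

end

end Fermat.Agent.SS
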