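import Fermat.Agent.SS.Formal.RedUp
import Fermat.Agent.SS.Formal.Norm
import Fermat.Agent.S31.Cyclo

/-!
# SS/Formal/Core35 : the Frobenius identity on `Kum (M*q) m`, from `Crux2`

For `x ∈ Kum (M*q) m`, `a = Nm (w x)`, `b = Nm x ∈ Kum M m` and a Frobenius element `φ` at `A ∣ q`,
`X = (φ² - q²)(φ + w) x - α^*(φ² a - q φ b) - β^*(φ² b - q φ a)` satisfies `φ² X = q² X`.
-/

set_option autoImplicit false

open AlgebraicCurve ModularCurve

namespace Fermat.Agent.SS

open Fermat.Agent.ES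

noncomputable section

variable {M q : ℕ} [NeZero M] [NeZero q]

/-- The explicit function representing `X`. -/
def uF (w : FF (M * q) →ₐ[Qb] FF (M * q)) (φ : GQ) (h : FF (M * q)) : FF (M * q) :=
  galF (M * q) φ (galF (M * q) φ (w h * galF (M * q) φ h))
    * ((w h * galF (M * q) φ h) ^ (q ^ 2))⁻¹
    * (heckeAlphaBar Qb M q (galF M φ (galF M φ (normA M q (w h)))
        * ((galF M φ (normA M q h)) ^ q)⁻¹))⁻¹
    * (heckeBetaBar Qb M q (galF M φ (galF M φ (normA M q h))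
        * ((galF M φ (normA M q (w h))) ^ q)⁻¹))⁻¹

variable {w : FF (M * q) →ₐ[Qb] FF (M * q)}

theorem w_uF (hw : IsAL M q w) (hq : q.Prime) (φ : GQ) (h : FF (M * q)) :
    w (uF w φ h) = uF w φ (w h) := by
  unfold uF
  simp only [map_mul, map_inv₀, map_pow, ← hw.galF_comm hq, hw.invol hq, hw.alpha, hw.beta]
  ring

theorem redConst_uF (hq : q.Prime) (hqM : ¬ q ∣ M) (hw : IsAL M q w)
    (A : ValuationSubring Qb) (hA : A.LiesOverPrime q)
    (g : A.decompositionSubgroup ℚ)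
    (hg : (resA A).comp (galA g) = (frobA hq hA).comp (resA A))
    (h : FF (M * q)) (hh : h ≠ 0) : RedConst A (uF w (g : GQ) h) := by
  have : NeZero (M * q) := ⟨Nat.mul_ne_zero (NeZero.ne M) (NeZero.ne q)⟩
  have hwh : w h ≠ 0 := by rw [Ne, map_eq_zero]; exact hh
  obtain ⟨r, hr, hH⟩ := exists_redUp A h hh
  obtain ⟨r', hr', hH'⟩ := exists_redUp A (w h) hwh
  set Fr : LaurentSeries (kA A) →+* LaurentSeries (kA A) := coeffMap (frobA hq hA) with hFr
  have hFr0 : ∀ {y : LaurentSeries (kA A)}, y ≠ 0 → Fr y ≠ 0 := fun hy =>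
    coeffMap_ne_zero_of_injective _ (frobA hq hA).injective hy
  have hpow : ∀ y : LaurentSeries (kA A), Vq (kA A) q (Fr y) = y ^ q := fun y =>
    (pow_eq_Vq_frobA hq hA y).symm
  -- the reductions of the two norms
  have hB : RedUp A ((normA M q h : FF M) : LaurentSeries Qb) (r * Fr r') := by
    refine RedUp.of_Vq q _ (normA_ne_zero hh) (mul_ne_zero hr (hFr0 hr')) ?_
    rw [Vq_normA hq hqM hw, map_mul, hpow]
    exact (hH.vq q).mul (hH'.tprod hq hA)
  have hA' : RedUp A ((normA M q (w h) : FF M) : LaurentSeries Qb) (r' * Fr r) := by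
    refine RedUp.of_Vq q _ (normA_ne_zero hwh) (mul_ne_zero hr' (hFr0 hr)) ?_
    rw [Vq_normA hq hqM hw, map_mul, hpow, hw.invol hq]
    exact (hH'.vq q).mul (hH.tprod hq hA)
  have hG : RedUp A ((w h : FF (M * q)) * coeffMap (((g : GQ) : Qb →+* Qb)) (h : LaurentSeries Qb))
      (r' * Fr r) := hH'.mul (hH.gal g _ hg)
  set ρa := r' * Fr r with hρa
  set ρb := r * Fr r' with hρb
  have hρa0 : ρa ≠ 0 := mul_ne_zero hr' (hFr0 hr)
  have hρb0 : ρb ≠ 0 := mul_ne_zero hr (hFr0 hr')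
  apply redConst_of_redUp
  have hV0 : ∀ {y : LaurentSeries (kA A)}, y ≠ 0 → Vq (kA A) q y ≠ 0 := fun hy =>
    (map_ne_zero_iff _ (Vq_injective q)).mpr hy
  have key := (((hG.gal g _ hg).gal g _ hg).mul ((hG.pow (q ^ 2)).inv (pow_ne_zero _ hρa0))).mul
    ((((hA'.gal g _ hg).gal g _ hg).mul (((hB.gal g _ hg).pow q).inv
      (pow_ne_zero _ (hFr0 hρb0)))).inv (mul_ne_zero (hFr0 (hFr0 hρa0))
        (inv_ne_zero (pow_ne_zero _ (hFr0 hρb0)))))
  have key2 := key.mul (((((hB.gal g _ hg).gal g _ hg).mul (((hA'.gal g _ hg).pow q).inv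
      (pow_ne_zero _ (hFr0 hρa0)))).vq q).inv (hV0 (mul_ne_zero (hFr0 (hFr0 hρb0))
        (inv_ne_zero (pow_ne_zero _ (hFr0 hρa0))))))
  refine key2.congr ?_ ?_
  · unfold uF
    simp only [IntermediateField.coe_mul, IntermediateField.coe_inv, IntermediateField.coe_pow,
      coe_galF, coe_heckeAlphaBar, coe_heckeBetaBar, map_mul]
  · rw [← hFr]
    simp only [map_mul, map_inv₀, map_pow, hpow]
    have h1 : Fr (Fr ρa) ≠ 0 := hFr0 (hFr0 hρa0)
    have h2 : Fr ρb ≠ 0 := hFr0 hρb0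
    field_simp
    ring

variable {m : ℕ}

/-- The class `X`. -/
def Xcl (hw : IsAL M q w) (hq : q.Prime) (m : ℕ) (φ : GQ) (x : Kum (M * q) m) : Kum (M * q) m :=
  galKum (M * q) m φ (galKum (M * q) m φ (wKum hw hq m x + galKum (M * q) m φ x))
    - (q ^ 2) • (wKum hw hq m x + galKum (M * q) m φ x)
    - pullA M q m (galKum M m φ (galKum M m φ (nmKum M q m (wKum hw hq m x)))
        - q • galKum M m φ (nmKum M q m x))
    - pullB M q m (galKum M m φ (galKum M m φ (nmKum M q m x))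
        - q • galKum M m φ (nmKum M q m (wKum hw hq m x)))

theorem exists_Xcl_eq (hw : IsAL M q w) (hq : q.Prime) (φ : GQ) (f : Dm (M * q) m) :
    ∃ u : Dm (M * q) m, Xcl hw hq m φ (Kum.mk f) = Kum.mk u ∧
      ((u : (FF (M * q))ˣ) : FF (M * q)) = uF w φ ((f : (FF (M * q))ˣ) : FF (M * q)) := by
  unfold Xcl
  simp only [wKum_mk, galKum_mk, nmKum_mk, ← Kum.mk_mul, ← Kum.mk_pow, sub_eq_add_neg,
    ← Kum.mk_inv, pullA_mk, pullB_mk]
  refine ⟨_, rfl, ?_⟩
  unfold uF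
  simp only [Subgroup.coe_mul, Units.val_mul, Subgroup.coe_inv, Units.val_inv_eq_inv_val,
    Subgroup.coe_pow, Units.val_pow_eq_pow_val, coe_galU, coe_wU, coe_alphaU, coe_betaU,
    coe_normU, map_mul, map_inv₀, map_pow]

/-- **S35, finite level core.** -/
theorem core35 (hq : q.Prime) (hqM : ¬ q ∣ M) (hqm : ¬ q ∣ m) (hc : Crux2 M q m)
    (hw : IsAL M q w) (A : ValuationSubring Qb) (hA : A.LiesOverPrime q) (φ : GQ)
    (hφ : A.IsFrobeniusAt φ q) (x : Kum (M * q) m) :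
    galKum (M * q) m φ (galKum (M * q) m φ (Xcl hw hq m φ x)) = (q ^ 2) • Xcl hw hq m φ x := by
  obtain ⟨f, rfl⟩ := Kum.mk_surjective x
  obtain ⟨g, hgφ, hg⟩ := res_galA_of_frobenius hq hA hφ
  obtain ⟨u, hu, huF⟩ := exists_Xcl_eq hw hq φ f
  have hf0 : ((f : (FF (M * q))ˣ) : FF (M * q)) ≠ 0 := (f : (FF (M * q))ˣ).ne_zero
  have hgk : ∀ x : kA A, g • x = x ^ q := by
    intro x
    obtain ⟨a, rfl⟩ := IsLocalRing.residue_surjective x
    have := congrArg (fun F : A →+* kA A => F a) hg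
    rw [← IsLocalRing.ResidueField.residue_smul]
    exact this
  have key := hc A hA w hw (g * g)
    (fun x hx => by rw [mul_smul, hgk, hgk, ← pow_mul, ← pow_two, hx]) (q ^ 2)
    (fun ζ hζ => by
      have := S31.frob_pow_apply_root A hq hA φ hφ hqm hζ 2
      rw [← this, pow_two, ← hgφ]
      rfl) u
    (by rw [huF, ← hgφ]; exact redConst_uF hq hqM hw A hA g hg _ hf0)
    (by
      rw [huF, w_uF hw hq, ← hgφ]
      refine redConst_uF hq hqM hw A hA g hg _ ?_
      rw [Ne, map_eq_zero]; exact hf0)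
  rw [hu, ← galKum_mul, ← key, ← hgφ]
  rfl

end

end Fermat.Agent.SS
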