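import Fermat.Agent.SS.Defs

/-!
# SS/Formal/KumMap : maps between Kummer modules of different levels
-/

set_option autoImplicit false

open AlgebraicCurve ModularCurve

namespace Fermat.Agent.SS

open Fermat.Agent.ES

noncomputable section

variable {N N' m : ℕ}

/-- A homomorphism `(FF N)ˣ → (FF N')ˣ` mapping `Dm N m` to `Dm N' m` induces a map of Kummer
modules. -/
def kumMap (φ : (FF N)ˣ →* (FF N')ˣ) (hD : ∀ f ∈ Dm N m, φ f ∈ Dm N' m) : Kum N m →+ Kum N' m :=
  MonoidHom.toAdditive (QuotientGroup.map _ _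
    ((φ.comp (Dm N m).subtype).codRestrict (Dm N' m) (fun f => hD f f.2)) (by
      rintro ⟨f, hf⟩ hfP
      rw [Subgroup.mem_subgroupOf] at hfP
      obtain ⟨h, hh⟩ := hfP
      rw [Subgroup.mem_comap, Subgroup.mem_subgroupOf]
      refine ⟨φ h, ?_⟩
      have hh' : h ^ m = f := hh
      show φ h ^ m = φ f
      rw [← map_pow, hh']))

theorem kumMap_mk (φ : (FF N)ˣ →* (FF N')ˣ) (hD : ∀ f ∈ Dm N m, φ f ∈ Dm N' m) (f : Dm N m) :
    kumMap φ hD (Kum.mk f) = Kum.mk ⟨φ f, hD f f.2⟩ := rfl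

/-- Equality of classes from equality of the underlying functions. -/
theorem mk_congr {f g : Dm N m} (h : ((f : (FF N)ˣ) : FF N) = ((g : (FF N)ˣ) : FF N)) :
    Kum.mk f = Kum.mk g := congrArg Kum.mk (Subtype.ext (Units.ext h))

end

end Fermat.Agent.SS
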